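/-
LSb / Kum / BaseDiv  (helper2)

`IsInertial.base_div_mem` for `L = Q̄`: an automorphism `σ` of `Q̄` which preserves the valuation
ring `A` (an element of the decomposition group) preserves the VALUATION of `A`:
`σ c / c ∈ A` for every `c ≠ 0` (hence `σ c / c ∈ Aˣ`, applying it to `c⁻¹`).
Reason: the `σ`-orbit of `c` is finite, `σ^m c = c`, so `∏_{i<m} σ^i (σ c / c) = 1`, and all factors
have the same position with respect to `A`.
-/
import Mathlib

set_option autoImplicit false

noncomputable section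

namespace Fermat.Agent.LSb.Kum

open Polynomial

variable {K : Type*} [Field K] [Algebra ℚ K] [Algebra.IsAlgebraic ℚ K]

/-- every element of an algebraic extension of `ℚ` has a finite orbit under an automorphism -/
theorem exists_pow_apply_eq (σ : K ≃ₐ[ℚ] K) (c : K) : ∃ m : ℕ, 0 < m ∧ (σ ^ m) c = c := by
  classical
  have hc : IsIntegral ℚ c := (Algebra.IsAlgebraic.isAlgebraic c).isIntegral
  have hfin : ((minpoly ℚ c).rootSet K).Finite := Polynomial.rootSet_finite _ _
  have hmem : ∀ i : ℕ, (σ ^ i) c ∈ (minpoly ℚ c).rootSet K := by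
    intro i
    rw [Polynomial.mem_rootSet]
    refine ⟨minpoly.ne_zero hc, ?_⟩
    have := Polynomial.aeval_algHom_apply ((σ ^ i : K ≃ₐ[ℚ] K) : K →ₐ[ℚ] K) c (minpoly ℚ c)
    rw [minpoly.aeval, map_zero] at this
    exact this
  have := hfin.to_subtype
  let g : ℕ → (minpoly ℚ c).rootSet K := fun i => ⟨(σ ^ i) c, hmem i⟩
  obtain ⟨i, j, hij, hg⟩ := Finite.exists_ne_map_eq_of_infinite g
  have hval : (σ ^ i) c = (σ ^ j) c := congrArg Subtype.val hg
  -- wlog i < j
  have key : ∀ i j : ℕ, i < j → (σ ^ i) c = (σ ^ j) c → ∃ m : ℕ, 0 < m ∧ (σ ^ m) c = c := by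
    intro i j hlt h
    refine ⟨j - i, Nat.sub_pos_of_lt hlt, ?_⟩
    have hj : σ ^ j = σ ^ i * σ ^ (j - i) := by
      rw [← pow_add, Nat.add_sub_cancel' hlt.le]
    rw [hj, AlgEquiv.mul_apply] at h
    exact ((σ ^ i).injective h).symm
  rcases lt_or_gt_of_ne hij with h | h
  · exact key i j h hval
  · exact key j i h hval.symm

variable (A : ValuationSubring K)

omit [Algebra.IsAlgebraic ℚ K] in
/-- an automorphism preserving `A` preserves `v ≤ 1`, iterated -/
theorem pow_apply_mem_iff (σ : K ≃ₐ[ℚ] K) (hσ : ∀ x, σ x ∈ A ↔ x ∈ A) (i : ℕ) (x : K) :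
    (σ ^ i) x ∈ A ↔ x ∈ A := by
  induction i generalizing x with
  | zero => simp
  | succ i ih =>
    rw [pow_succ, AlgEquiv.mul_apply, ih, hσ]

/-- **`σ c / c ∈ A`** for `σ` in the decomposition group of `A`. -/
theorem base_div_mem (σ : K ≃ₐ[ℚ] K) (hσ : ∀ x, σ x ∈ A ↔ x ∈ A) (c : K) (hc : c ≠ 0) :
    σ c / c ∈ A := by
  by_contra ht
  obtain ⟨m, hm, hmc⟩ := exists_pow_apply_eq σ c
  set t : K := σ c / c with htdef
  set v := A.valuation with hv
  have hvt : ∀ i : ℕ, 1 < v ((σ ^ i) t) := by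
    intro i
    rw [← not_le, A.valuation_le_one_iff, pow_apply_mem_iff A σ hσ]
    exact ht
  have hne : ∀ i : ℕ, (σ ^ i) c ≠ 0 := fun i => (_root_.map_ne_zero _).2 hc
  have htel : ∀ n : ℕ, ∏ i ∈ Finset.range n, (σ ^ i) t = (σ ^ n) c / c := by
    intro n
    induction n with
    | zero => simp [div_self hc]
    | succ n ih =>
      rw [Finset.prod_range_succ, ih, htdef, map_div₀, pow_succ, AlgEquiv.mul_apply,
        div_mul_div_comm, mul_comm, mul_div_mul_right _ _ (hne n)]
  have hprod : ∀ n : ℕ, 0 < n → 1 < v (∏ i ∈ Finset.range n, (σ ^ i) t) := by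
    intro n hn
    induction n with
    | zero => exact absurd hn (lt_irrefl 0)
    | succ n ih =>
      rw [Finset.prod_range_succ, map_mul]
      rcases Nat.eq_zero_or_pos n with h0 | h0
      · subst h0
        simpa using hvt 0
      · exact one_lt_mul_of_lt_of_le' (ih h0) (hvt n).le
  have := hprod m hm
  rw [htel m, hmc, div_self hc, map_one] at this
  exact lt_irrefl _ this

/-- unit version -/
theorem base_div_mem_and_inv (σ : K ≃ₐ[ℚ] K) (hσ : ∀ x, σ x ∈ A ↔ x ∈ A) (c : K) (hc : c ≠ 0) :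
    σ c / c ∈ A ∧ (σ c / c)⁻¹ ∈ A := by
  refine ⟨base_div_mem A σ hσ c hc, ?_⟩
  have := base_div_mem A σ hσ c⁻¹ (inv_ne_zero hc)
  rwa [map_inv₀, inv_div_inv, ← inv_div] at this

end Fermat.Agent.LSb.Kum
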