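/-
LSb / Kum / Teich  (helper2)

**Inertia-fixed lifts** ("Teichmüller lifts") for a valuation ring `A` of `Q̄` over a prime `q`:
every element `c̄` of the residue field `k = A / 𝔪_A` has a lift `c₀ ∈ A` which is fixed by the
inertia group of `A` (`c₀ = 0` or a root of unity of order prime to `q`).

Needed for the chart constant `c₀` of the nodal datum: `σ • zerosOf (j - c₀) = zerosOf (j - σ c₀)`,
so `IsInertial.smul_P₂` needs `σ c₀ = c₀`.
-/
import Fermat.Agent.S37lib.C0.Decomp
import Fermat.Agent.S18lib.Gink.Residue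
import Fermat.Prelude.Def_FLTPrelim_Ramification

set_option autoImplicit false
set_option linter.unusedSectionVars false

noncomputable section

namespace Fermat.Agent.LSb.Kum

open Polynomial Fermat.Agent.S18lib Fermat.Agent.S37lib

local notation "Qb" => AlgebraicClosure ℚ

/-- every element of `Q̄` is a root of a primitive integer polynomial (local copy of
`S18lib.RankOne.exists_primitive_aeval_eq_zero`, so that this file does not import
`S18lib/V/RankOne`, whose main theorem has a twin in `S18lib/Asm/RankOne`) -/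
theorem exists_primitive_aeval_eq_zero_Qb (x : Qb) :
    ∃ q : ℤ[X], q.IsPrimitive ∧ aeval x q = 0 := by
  have hQ : Algebra.IsAlgebraic ℚ Qb := AlgebraicClosure.isAlgebraic ℚ
  have halg : IsAlgebraic ℤ x :=
    (IsFractionRing.isAlgebraic_iff ℤ ℚ Qb).mpr (hQ.isAlgebraic x)
  obtain ⟨p, hp0, hp⟩ := halg
  exact ⟨p.primPart, p.isPrimitive_primPart, aeval_primPart_eq_zero hp0 hp⟩

variable (A : ValuationSubring (AlgebraicClosure ℚ))

local notation "kA" => IsLocalRing.ResidueField A

/-- an element of the inertia group maps `A` to `A` and acts trivially on residues -/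
theorem residue_eq_of_mem_inertia {σ : Qb ≃ₐ[ℚ] Qb} (hσ : σ ∈ A.inertiaSubgroupIn ℚ) (a : A) :
    ∃ h : σ (a : Qb) ∈ A, IsLocalRing.residue A ⟨σ (a : Qb), h⟩ = IsLocalRing.residue A a := by
  obtain ⟨g, hg, rfl⟩ := hσ
  refine ⟨(C0.sigmaA A g a).2, ?_⟩
  have h1 := C0.residue_sigmaA A g a
  rw [C0.sigmaBar_eq_one_of_mem_inertia A hg] at h1
  exact h1

/-- an element of the inertia group preserves `A` -/
theorem mem_iff_of_mem_inertia {σ : Qb ≃ₐ[ℚ] Qb} (hσ : σ ∈ A.inertiaSubgroupIn ℚ) (x : Qb) :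
    σ x ∈ A ↔ x ∈ A := by
  obtain ⟨g, -, rfl⟩ := hσ
  have hg := g.2
  constructor
  · intro h
    have h1 : (g : Qb ≃ₐ[ℚ] Qb)⁻¹ ∈ A.decompositionSubgroup ℚ := inv_mem hg
    have h2 := ((A.decompositionSubgroup ℚ).subtype g)
    have h3 : ((g⁻¹ : A.decompositionSubgroup ℚ) : Qb ≃ₐ[ℚ] Qb) ((g : Qb ≃ₐ[ℚ] Qb) x) ∈ A :=
      (C0.sigmaA A g⁻¹ ⟨_, h⟩).2
    simpa using h3
  · intro h
    exact (C0.sigmaA A g ⟨x, h⟩).2

/-- roots of unity lie in `A` -/
theorem mem_of_pow_eq_one {r : Qb} {m : ℕ} (hm : m ≠ 0) (hr : r ^ m = 1) : r ∈ A := by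
  rw [← A.valuation_le_one_iff]
  by_contra h
  rw [not_le] at h
  have := one_lt_pow' h hm
  rw [← map_pow, hr, map_one] at this
  exact lt_irrefl _ this

variable {A}
variable {q : ℕ} [hq : Fact q.Prime]

/-- every nonzero element of the residue field is a root of unity of order prime to `q` -/
theorem exists_pow_eq_one (hA : A.LiesOverPrime q) {cbar : kA} (hc : cbar ≠ 0) :
    ∃ m : ℕ, 0 < m ∧ ¬ q ∣ m ∧ cbar ^ m = 1 := by
  classical
  haveI : CharP kA q := Gink.charP_residueField A hq.out hA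
  letI : Algebra (ZMod q) kA := ZMod.algebra kA q
  obtain ⟨a, rfl⟩ := IsLocalRing.residue_surjective (R := A) cbar
  obtain ⟨p, hprim, hp⟩ := exists_primitive_aeval_eq_zero_Qb (a : Qb)
  -- reduce `p` mod `q`
  set pbar : (ZMod q)[X] := p.map (Int.castRingHom (ZMod q)) with hpbar
  have hpbar0 : pbar ≠ 0 := by
    intro h0
    have hall : ∀ i, (q : ℤ) ∣ p.coeff i := by
      intro i
      have := congrArg (fun f => f.coeff i) h0
      simp only [hpbar, coeff_map, coeff_zero] at this
      exact (ZMod.intCast_zmod_eq_zero_iff_dvd _ _).1 this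
    have hdvd : C (q : ℤ) ∣ p := (C_dvd_iff_dvd_coeff _ _).2 hall
    have hunit := hprim _ hdvd
    have hp' : Prime (q : ℤ) := Nat.prime_iff_prime_int.mp hq.out
    exact hp'.not_isUnit hunit
  have hroot : aeval (IsLocalRing.residue A a) pbar = 0 := by
    -- `p(a) = 0` in `A`
    have h1 : eval₂ (Int.castRingHom A) a p = 0 := by
      apply Subtype.ext
      have h2 := Polynomial.hom_eval₂ p (Int.castRingHom A) A.subtype a
      have h3 : A.subtype.comp (Int.castRingHom A) = Int.castRingHom Qb := RingHom.ext_int _ _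
      have h4 : eval₂ (Int.castRingHom Qb) (a : Qb) p = aeval (a : Qb) p := by
        rw [aeval_def]; rfl
      rw [h3, show A.subtype a = (a : Qb) from rfl, h4, hp] at h2
      exact h2
    have h5 := Polynomial.hom_eval₂ p (Int.castRingHom A) (IsLocalRing.residue A) a
    rw [h1, map_zero] at h5
    rw [aeval_def, hpbar, eval₂_map]
    have h6 : (algebraMap (ZMod q) kA).comp (Int.castRingHom (ZMod q)) =
        (IsLocalRing.residue A).comp (Int.castRingHom A) := RingHom.ext_int _ _
    rw [h6]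
    exact h5.symm
  have halg : IsAlgebraic (ZMod q) (IsLocalRing.residue A a) := ⟨pbar, hpbar0, hroot⟩
  -- the finite field `F_q(c̄)`
  set E := IntermediateField.adjoin (ZMod q) {IsLocalRing.residue A a} with hE
  haveI : FiniteDimensional (ZMod q) E :=
    IntermediateField.adjoin.finiteDimensional halg.isIntegral
  haveI : Finite E := Module.finite_of_finite (ZMod q)
  haveI : Fintype E := Fintype.ofFinite E
  let x : E := ⟨IsLocalRing.residue A a, IntermediateField.mem_adjoin_simple_self _ _⟩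
  have hx0 : x ≠ 0 := fun h => hc (congrArg Subtype.val h)
  have hpow := FiniteField.pow_card_sub_one_eq_one x hx0
  obtain ⟨n, -, hcard⟩ := FiniteField.card E q
  refine ⟨Fintype.card E - 1, ?_, ?_, ?_⟩
  · have : 1 < Fintype.card E := Fintype.one_lt_card
    omega
  · rw [hcard]
    intro hdvd
    have h1 : q ∣ q ^ (n : ℕ) := dvd_pow_self q n.ne_zero
    have h2 : 1 ≤ q ^ (n : ℕ) := Nat.one_le_pow _ _ hq.out.pos
    have h3 : q ∣ 1 := by
      have := (Nat.dvd_sub h1 hdvd)
      rwa [Nat.sub_sub_self h2] at this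
    exact hq.out.one_lt.ne' (Nat.dvd_one.1 h3)
  · have := congrArg Subtype.val hpow
    simpa using this

/-- **Inertia-fixed lifts.** -/
theorem exists_inertia_fixed_lift (hA : A.LiesOverPrime q) (cbar : kA) :
    ∃ c₀ : A, IsLocalRing.residue A c₀ = cbar ∧
      ∀ σ : Qb ≃ₐ[ℚ] Qb, σ ∈ A.inertiaSubgroupIn ℚ → σ (c₀ : Qb) = (c₀ : Qb) := by
  classical
  haveI : CharP kA q := Gink.charP_residueField A hq.out hA
  by_cases hc : cbar = 0
  · exact ⟨0, by rw [hc, map_zero], fun σ _ => by simp⟩
  obtain ⟨m, hm, hqm, hpow⟩ := exists_pow_eq_one hA hc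
  obtain ⟨a, ha⟩ := IsLocalRing.residue_surjective (R := A) cbar
  -- `X^m - 1` splits over `Q̄`
  have hsplit : (X ^ m - 1 : Qb[X]).Splits := IsAlgClosed.splits _
  have hmonic : (X ^ m - 1 : Qb[X]).Monic := monic_X_pow_sub_C 1 hm.ne'
  have hroots : ∀ r ∈ (X ^ m - 1 : Qb[X]).roots, r ^ m = 1 := by
    intro r hr
    have := (mem_roots hmonic.ne_zero).1 hr
    simpa [sub_eq_zero] using this
  have hrA : ∀ r ∈ (X ^ m - 1 : Qb[X]).roots, r ∈ A := fun r hr =>
    mem_of_pow_eq_one A hm.ne' (hroots r hr)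
  -- `a^m - 1 = ∏ (a - r)`
  have heval := hsplit.eval_eq_prod_roots_of_monic hmonic (a : Qb)
  simp only [eval_sub, eval_pow, eval_X, eval_one] at heval
  -- some root has the same residue as `a`
  have key : ∃ r ∈ (X ^ m - 1 : Qb[X]).roots, ∃ hr : r ∈ A,
      IsLocalRing.residue A ⟨r, hr⟩ = cbar := by
    by_contra hcon
    push Not at hcon
    -- every factor `a - r` is a unit mod `𝔪`, so is the product, but `a^m - 1 ∈ 𝔪`
    have hfac : ∀ (s : Multiset Qb), (∀ r ∈ s, r ∈ (X ^ m - 1 : Qb[X]).roots) →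
        ∃ h : (s.map (fun r => (a : Qb) - r)).prod ∈ A,
          IsLocalRing.residue A ⟨_, h⟩ ≠ 0 := by
      intro s
      induction s using Multiset.induction_on with
      | empty =>
        intro _
        refine ⟨by simpa using A.one_mem, ?_⟩
        have : (⟨(Multiset.map (fun r => (a : Qb) - r) 0).prod, by simpa using A.one_mem⟩ : A)
            = 1 := by
          apply Subtype.ext; simp
        rw [this, map_one]
        exact one_ne_zero
      | cons r s ih =>
        intro hs
        obtain ⟨h1, h2⟩ := ih (fun r' hr' => hs r' (Multiset.mem_cons_of_mem hr'))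
        have hr := hs r (Multiset.mem_cons_self r s)
        have hrA' := hrA r hr
        have hmem : (a : Qb) - r ∈ A := sub_mem a.2 hrA'
        have hne : IsLocalRing.residue A ⟨(a : Qb) - r, hmem⟩ ≠ 0 := by
          intro h0
          apply hcon r hr hrA'
          have : (⟨(a : Qb) - r, hmem⟩ : A) = a - ⟨r, hrA'⟩ := Subtype.ext rfl
          rw [this, map_sub, sub_eq_zero] at h0
          rw [← h0, ha]
        refine ⟨by
          rw [Multiset.map_cons, Multiset.prod_cons]
          exact A.mul_mem _ _ hmem h1, ?_⟩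
        have : (⟨(Multiset.map (fun r => (a : Qb) - r) (r ::ₘ s)).prod, by
            rw [Multiset.map_cons, Multiset.prod_cons]
            exact A.mul_mem _ _ hmem h1⟩ : A) = ⟨(a : Qb) - r, hmem⟩ * ⟨_, h1⟩ := by
          apply Subtype.ext
          simp [Multiset.map_cons, Multiset.prod_cons]
        rw [this, map_mul]
        exact mul_ne_zero hne h2
    obtain ⟨h1, h2⟩ := hfac _ (fun r hr => hr)
    apply h2
    have : (⟨(Multiset.map (fun r => (a : Qb) - r) (X ^ m - 1 : Qb[X]).roots).prod, h1⟩ : A)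
        = a ^ m - 1 := by
      apply Subtype.ext
      exact heval.symm
    rw [this, map_sub, map_pow, map_one, ha, hpow, sub_self]
  obtain ⟨r, hr, hrA', hres⟩ := key
  refine ⟨⟨r, hrA'⟩, hres, fun σ hσ => ?_⟩
  -- `η = σ r / r` is an `m`-th root of unity with residue `1`
  have hrm : r ^ m = 1 := hroots r hr
  have hr0 : r ≠ 0 := by
    intro h0
    rw [h0, zero_pow hm.ne'] at hrm
    exact zero_ne_one hrm
  obtain ⟨hσr, hσres⟩ := residue_eq_of_mem_inertia A hσ ⟨r, hrA'⟩
  by_contra hne
  set η : Qb := σ r / r with hη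
  have hη1 : η ≠ 1 := by
    intro h1
    apply hne
    rw [hη, div_eq_one_iff_eq hr0] at h1
    exact h1
  have hηm : η ^ m = 1 := by
    rw [hη, div_pow, ← map_pow, hrm, map_one, div_one]
  have hηA : η ∈ A := mem_of_pow_eq_one A hm.ne' hηm
  have hrinv : r⁻¹ ∈ A := mem_of_pow_eq_one A hm.ne' (by rw [inv_pow, hrm, inv_one])
  have hηres : IsLocalRing.residue A ⟨η, hηA⟩ = 1 := by
    have e : (⟨η, hηA⟩ : A) = ⟨σ r, hσr⟩ * ⟨r⁻¹, hrinv⟩ := Subtype.ext (div_eq_mul_inv _ _)
    have e2 : (⟨r, hrA'⟩ : A) * ⟨r⁻¹, hrinv⟩ = 1 := Subtype.ext (mul_inv_cancel₀ hr0)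
    rw [e, map_mul, hσres, ← map_mul, e2, map_one]
  -- geometric sum
  have hgeom : ∑ i ∈ Finset.range m, η ^ i = 0 := by
    have := mul_geom_sum η m
    rw [hηm, sub_self] at this
    exact (mul_eq_zero.1 this).resolve_left (sub_ne_zero.2 hη1)
  have hgeomA : ∑ i ∈ Finset.range m, (⟨η, hηA⟩ : A) ^ i = 0 := by
    apply Subtype.ext
    show ((∑ i ∈ Finset.range m, (⟨η, hηA⟩ : A) ^ i : A) : Qb) = 0
    push_cast
    exact hgeom
  have := congrArg (IsLocalRing.residue A) hgeomA
  rw [map_sum, map_zero] at this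
  simp only [map_pow, hηres, one_pow, Finset.sum_const, Finset.card_range, nsmul_eq_mul,
    mul_one] at this
  exact hqm ((CharP.cast_eq_zero_iff kA q m).1 this)

end Fermat.Agent.LSb.Kum
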