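/-
LSb / Kum / Inertial  (helper2)

**`IsInertial` for the modular chart datum**: for `σ` in the inertia group of `A ∣ q` the
semilinear automorphism `arithmeticGalois (modularFunctionFieldFull (M * q)) σ` of `FBar (M * q)`
(coefficientwise action on `t`-expansions) is inertial for the nodal datum
`Unit.chartDatum D1 D2 j c₀ s x₁ x₂`, provided

* `D1` is the Gauss datum of integral `t`-expansions (`Old.IsGaussOne D1`) and every element of
  `D1.O` is a quotient `a / b` of integral modular functions with `b̄ ≠ 0`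
  (`D1.O ⊆ V.gaussSubring (M * q) A`, true by construction for helper9's `D1`);
* `D2` is the transport of `D1` by a ring endomorphism `wq` commuting with `σ`
  (`Old.IsGaussTwo D1 D2 wq`, helper9's `wq_arithmeticRingAut`);
* the chart constant `c₀` is fixed by `σ` (`Kum.exists_inertia_fixed_lift`).
-/
import Fermat.Agent.LSb.Core.Datum
import Fermat.Agent.LSb.Unit.Datum
import Fermat.Agent.LSb.Old.Lift
import Fermat.Agent.LSb.Kum.BaseDiv
import Fermat.Agent.LSb.Kum.Teich
import Fermat.Agent.S37lib.C0.Decomp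
import Fermat.Agent.S37lib.B3.Equivariant
import Fermat.Agent.S18lib.Gin0.Main

set_option autoImplicit false
set_option linter.unusedSectionVars false
set_option linter.unusedVariables false

noncomputable section

namespace Fermat.Agent.LSb.Kum

open AlgebraicCurve ModularCurve HahnSeries Fermat.Agent.S18lib Fermat.Agent.S37lib

local notation "Qb" => AlgebraicClosure ℚ

/-! ### abstract: automorphisms preserving a Gauss datum -/

section Abstract

variable {L : Type*} [Field L] {B : ValuationSubring L}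
variable {F : Type*} [Field F] [Algebra L F]
variable {Fk : Type*} [Field Fk] [Algebra (IsLocalRing.ResidueField B) Fk]

/-- If a ring endomorphism `g` of `F` maps a generating set `S` of "integral" elements into `D.O`
compatibly with the reduction, and every element of `D.O` is a quotient `a / b` with `a b ∈ S`,
`red b ≠ 0`, then `g` maps `D.O` into itself and commutes with the reduction. -/
theorem mem_and_redF_of_rep (D : GaussDatum B F Fk) (g : F →+* F) (S : Set F)
    (hS : ∀ a ∈ S, a ∈ D.O ∧ g a ∈ D.O ∧ D.redF (g a) = D.redF a)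
    (hrep : ∀ x ∈ D.O, ∃ a ∈ S, ∃ b ∈ S, D.redF b ≠ 0 ∧ x * b = a)
    {x : F} (hx : x ∈ D.O) : g x ∈ D.O ∧ D.redF (g x) = D.redF x := by
  obtain ⟨a, ha, b, hb, hb0, hab⟩ := hrep x hx
  obtain ⟨haO, hgaO, hga⟩ := hS a ha
  obtain ⟨hbO, hgbO, hgb⟩ := hS b hb
  have h1 : g x * g b = g a := by rw [← map_mul, hab]
  have hgb0 : D.redF (g b) ≠ 0 := by rw [hgb]; exact hb0
  obtain ⟨h2, h3⟩ := Old.redF_of_mul_eq D hgaO hgb0 h1
  obtain ⟨-, h4⟩ := Old.redF_of_mul_eq D haO hb0 hab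
  exact ⟨h2, by rw [h3, h4, hga, hgb]⟩

/-- the converse: `g x ∈ D.O → x ∈ D.O` -/
theorem mem_of_map_mem_of_rep (D : GaussDatum B F Fk) (g : F →+* F) (S : Set F)
    (hS : ∀ a ∈ S, a ∈ D.O ∧ g a ∈ D.O ∧ D.redF (g a) = D.redF a)
    (hrep : ∀ x ∈ D.O, ∃ a ∈ S, ∃ b ∈ S, D.redF b ≠ 0 ∧ x * b = a)
    {x : F} (hx : g x ∈ D.O) : x ∈ D.O := by
  by_contra hxO
  obtain ⟨hxi, hred⟩ := Old.redF_inv_eq_zero_of_not_mem D hxO
  obtain ⟨h1, h2⟩ := mem_and_redF_of_rep D g S hS hrep hxi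
  have hx0 : x ≠ 0 := by
    rintro rfl
    exact hxO (zero_mem _)
  have h3 : g x * g x⁻¹ = 1 := by rw [← map_mul, mul_inv_cancel₀ hx0, map_one]
  have h4 := D.redF_mul hx h1
  rw [h3, D.redF_one, h2, hred, mul_zero] at h4
  exact one_ne_zero h4

end Abstract


/-! ### the first Gauss datum -/

section One

variable {M q : ℕ} [NeZero M] [NeZero q]
variable {A : ValuationSubring (AlgebraicClosure ℚ)}

local notation "kA" => IsLocalRing.ResidueField A

/-- the coefficientwise action of `σ` on `FBar N`, as a ring endomorphism -/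
abbrev galHom (N : ℕ) (σ : Qb ≃ₐ[ℚ] Qb) : FBar N →+* FBar N :=
  (arithmeticRingAut (modularFunctionFieldFull N) σ : FBar N ≃+* FBar N)

theorem galois_smul_eq (N : ℕ) (σ : Qb ≃ₐ[ℚ] Qb) (y : FBar N) :
    arithmeticGalois (modularFunctionFieldFull N) σ • y = galHom N σ y := rfl

/-- the set of functions with an `A`-integral `t`-expansion -/
def integralSet (N : ℕ) (A : ValuationSubring (AlgebraicClosure ℚ)) : Set (FBar N) :=
  {x | ∃ (y : LaurentSeries A) (hy : V.toL A y ∈ modularFunctionFieldBar N), x = ⟨V.toL A y, hy⟩}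

theorem integralSet_spec {D1 : GaussDatum A (FBar (M * q)) (FRes A M)} (h1 : Old.IsGaussOne D1)
    {σ : Qb ≃ₐ[ℚ] Qb} (hσ : σ ∈ A.inertiaSubgroupIn ℚ) (a : FBar (M * q))
    (ha : a ∈ integralSet (M * q) A) :
    a ∈ D1.O ∧ galHom (M * q) σ a ∈ D1.O ∧ D1.redF (galHom (M * q) σ a) = D1.redF a := by
  obtain ⟨y, hy, rfl⟩ := ha
  obtain ⟨g, hg, hgσ⟩ := hσ
  set y' : LaurentSeries A := coeffMap ((C0.sigmaA A g : A ≃+* A) : A →+* A) y with hy'
  have e1 : V.toL A y' = coeffMap (σ : Qb →+* Qb) (V.toL A y) := by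
    rw [← hgσ]
    exact C0.coeffMap_subtype_sigmaA A g y
  have hmem : V.toL A y' ∈ modularFunctionFieldBar (M * q) := by
    rw [e1]; exact (galHom (M * q) σ ⟨V.toL A y, hy⟩).2
  have e2 : galHom (M * q) σ ⟨V.toL A y, hy⟩ = ⟨V.toL A y', hmem⟩ :=
    Subtype.ext e1.symm
  have e3 : V.toK A y' = V.toK A y := by
    have := C0.coeffMap_residue_sigmaA A g y
    rw [C0.sigmaBar_eq_one_of_mem_inertia A hg] at this
    refine this.trans ?_
    rw [show (((1 : RingAut kA) : kA ≃+* kA) : kA →+* kA) = RingHom.id kA from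
      RingHom.ext fun _ => rfl, coeffMap_id]
    rfl
  refine ⟨h1.mem y hy, ?_, ?_⟩
  · rw [e2]
    exact h1.mem y' hmem
  · rw [e2]
    apply Subtype.ext
    rw [h1.red y' hmem, h1.red y hy, e3]

theorem exists_rep_of_mem_gaussSubring {D1 : GaussDatum A (FBar (M * q)) (FRes A M)}
    (h1 : Old.IsGaussOne D1) {x : FBar (M * q)} (hx : x ∈ V.gaussSubring (M * q) A) :
    ∃ a ∈ integralSet (M * q) A, ∃ b ∈ integralSet (M * q) A, D1.redF b ≠ 0 ∧ x * b = a := by
  obtain ⟨a, b, hb, hab⟩ := hx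
  have ha' : V.elemL a ∈ integralSet (M * q) A := ⟨a.1, a.2.1, rfl⟩
  have hb' : V.elemL b ∈ integralSet (M * q) A := ⟨b.1, b.2.1, rfl⟩
  refine ⟨V.elemL a, ha', V.elemL b, hb', ?_, hab⟩
  intro h0
  apply hb
  have h2 : ((D1.redF (V.elemL b) : FRes A M) : LaurentSeries kA) = V.toK A b.1 :=
    h1.red b.1 b.2.1
  have h4 : V.toK A b.1 = 0 := by
    rw [← h2, h0]
    exact ZeroMemClass.coe_zero _
  apply Subtype.ext
  rw [V.coe_elemK, h4]
  exact (ZeroMemClass.coe_zero _).symm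

/-- **`mem₁`, `red₁`** -/
theorem gaussOne_inertial {D1 : GaussDatum A (FBar (M * q)) (FRes A M)} (h1 : Old.IsGaussOne D1)
    (hO1 : ∀ x ∈ D1.O, x ∈ V.gaussSubring (M * q) A)
    {σ : Qb ≃ₐ[ℚ] Qb} (hσ : σ ∈ A.inertiaSubgroupIn ℚ) (x : FBar (M * q)) :
    (galHom (M * q) σ x ∈ D1.O ↔ x ∈ D1.O) ∧
      (x ∈ D1.O → D1.redF (galHom (M * q) σ x) = D1.redF x) := by
  have hS := integralSet_spec h1 hσ
  have hrep : ∀ x ∈ D1.O, ∃ a ∈ integralSet (M * q) A, ∃ b ∈ integralSet (M * q) A,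
      D1.redF b ≠ 0 ∧ x * b = a := fun x hx => exists_rep_of_mem_gaussSubring h1 (hO1 x hx)
  exact ⟨⟨fun h => mem_of_map_mem_of_rep D1 _ _ hS hrep h,
    fun h => (mem_and_redF_of_rep D1 _ _ hS hrep h).1⟩,
    fun h => (mem_and_redF_of_rep D1 _ _ hS hrep h).2⟩

end One

/-! ### the second Gauss datum -/

section Two

variable {M q : ℕ} [NeZero M] [NeZero q]
variable {A : ValuationSubring (AlgebraicClosure ℚ)}

/-- **`mem₂`, `red₂`**: transport by `wq` -/
theorem gaussTwo_inertial {D1 D2 : GaussDatum A (FBar (M * q)) (FRes A M)}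
    (h1 : Old.IsGaussOne D1) (hO1 : ∀ x ∈ D1.O, x ∈ V.gaussSubring (M * q) A)
    {wq : FBar (M * q) →+* FBar (M * q)} (h2 : Old.IsGaussTwo D1 D2 wq)
    {σ : Qb ≃ₐ[ℚ] Qb} (hσ : σ ∈ A.inertiaSubgroupIn ℚ)
    (hwq : ∀ f : FBar (M * q), wq (arithmeticRingAut (modularFunctionFieldFull (M * q)) σ f) =
      arithmeticRingAut (modularFunctionFieldFull (M * q)) σ (wq f))
    (x : FBar (M * q)) :
    (galHom (M * q) σ x ∈ D2.O ↔ x ∈ D2.O) ∧
      (x ∈ D2.O → D2.redF (galHom (M * q) σ x) = D2.redF x) := by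
  have hwq' : ∀ f : FBar (M * q), wq (galHom (M * q) σ f) = galHom (M * q) σ (wq f) := hwq
  have key := gaussOne_inertial h1 hO1 hσ (wq x)
  refine ⟨?_, fun hx => ?_⟩
  · rw [h2.mem_iff, hwq', key.1, ← h2.mem_iff]
  · rw [h2.redF, hwq', key.2 ((h2.mem_iff x).1 hx), ← h2.redF]

end Two

/-! ### the chart divisors -/

section Div

variable {K E : Type*} [Field K] [Field E] [Algebra K E]

theorem smul_zerosOf [HasPrincipalDivisors K E] (g : SemilinearAut K E) (y : E) :
    g • zerosOf (K := K) y = zerosOf (K := K) (g • y) := by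
  ext w
  rw [SemilinearAut.divisor_smul_apply, zerosOf_apply, zerosOf_apply]
  have h1 := SemilinearAut.ord_smul g (g⁻¹ • w) y
  rw [smul_inv_smul] at h1
  rw [h1]

/-- `j` has rational coefficients -/
theorem galois_smul_jF (N : ℕ) [NeZero N] (σ : Qb ≃ₐ[ℚ] Qb) :
    arithmeticGalois (modularFunctionFieldFull N) σ • Gin0.jF N = Gin0.jF N := by
  apply Subtype.ext
  rw [coe_arithmeticGalois_smul, Gin0.coe_jF, coeffMap_jqModC]

end Div

/-! ### the main theorem -/

section Main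

variable {M q : ℕ} [NeZero M] [NeZero q]
variable {A : ValuationSubring (AlgebraicClosure ℚ)}

local notation "kA" => IsLocalRing.ResidueField A

/-- **`IsInertial`** for the modular chart datum and `σ` in the inertia group of `A`. -/
theorem chartDatum_isInertial [HasPrincipalDivisors Qb (FBar (M * q))]
    [HasPrincipalDivisors kA (FRes A M)]
    {D1 D2 : GaussDatum A (FBar (M * q)) (FRes A M)}
    (h1 : Old.IsGaussOne D1) (hO1 : ∀ x ∈ D1.O, x ∈ V.gaussSubring (M * q) A)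
    {wq : FBar (M * q) →+* FBar (M * q)} (h2 : Old.IsGaussTwo D1 D2 wq)
    {σ : Qb ≃ₐ[ℚ] Qb} (hσ : σ ∈ A.inertiaSubgroupIn ℚ)
    (hwq : ∀ f : FBar (M * q), wq (arithmeticRingAut (modularFunctionFieldFull (M * q)) σ f) =
      arithmeticRingAut (modularFunctionFieldFull (M * q)) σ (wq f))
    (c₀ : A) (hc₀ : σ (c₀ : Qb) = c₀) (s : ℕ) (x₁ x₂ : Fin s → Place kA (FRes A M)) :
    (Unit.chartDatum D1 D2 (Gin0.jF (M * q)) c₀ s x₁ x₂).IsInertial
      (arithmeticGalois (modularFunctionFieldFull (M * q)) σ) where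
  base_div_mem := fun c hc =>
    haveI : Algebra.IsAlgebraic ℚ Qb := AlgebraicClosure.isAlgebraic ℚ
    base_div_mem A σ (mem_iff_of_mem_inertia A hσ) c hc
  mem₁ := fun y => (gaussOne_inertial h1 hO1 hσ y).1
  mem₂ := fun y => (gaussTwo_inertial h1 hO1 h2 hσ hwq y).1
  red₁ := fun y hy => (gaussOne_inertial h1 hO1 hσ y).2 hy
  red₂ := fun y hy => (gaussTwo_inertial h1 hO1 h2 hσ hwq y).2 hy
  smul_P₁ := by
    rw [Unit.chartDatum_P₁, B3.smul_polesOf, galois_smul_jF]
  smul_P₂ := by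
    rw [Unit.chartDatum_P₂, smul_zerosOf, smul_sub, galois_smul_jF,
      SemilinearAut.smul_algebraMap, baseAut_arithmeticGalois]
    have : (σ.toRingEquiv : Qb ≃+* Qb) (c₀ : Qb) = c₀ := hc₀
    rw [this]

end Main

end Fermat.Agent.LSb.Kum
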